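import Fermat.Agent.LT.T5.H277.Coeff

/-!
# Row LT, tower T5 (helper32): Eisenstein-killing functions form a two-sided ideal

OFF-MAIN, ADDITIVE.  Vocabulary of `T5/Spec.lean` v4 only (`T5.IsEK`, `T5.conv`, `T5.adjointFn`,
`T5.Rconv`, `T5.IsFrame`).  Input for the field `ekprod_up` / `ekprod_down` of `T7.IsL2Data`
(ruling of helper797, 15:22Z).

* `support_conv_subset32` : `supp (φ₁ ⋆ φ₂) ⊆ supp φ₁ · supp φ₂` (no hypothesis);
* `continuous_conv32`, `hasCompactSupport_conv32`;
* `isEK_conv_right32` : `φ` EK ⟹ `β ⋆ φ` EK;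
* `isEK_conv_left32`  : `φ` EK ⟹ `φ ⋆ β` EK  (`R(β) Ψ` is again Borel invariant);
* `adjointFn_conv32`  : `(φ₁ ⋆ φ₂)* = φ₂* ⋆ φ₁*`;
* `adjointFn_adjointFn32`, `continuous_adjointFn32`, `hasCompactSupport_adjointFn32`;
* `isEK_adjoint_conv_left32`, `isEK_adjoint_conv_right32` : the adjoints of `φ ⋆ β`, `β ⋆ φ` are
  EK if the adjoint of `φ` is;
* `conv_assoc32` : `(a ⋆ b) ⋆ c = a ⋆ (b ⋆ c)`.
-/

set_option autoImplicit false
open IsDedekindDomain NumberField MeasureTheory
open scoped MatrixGroups ComplexConjugate Pointwise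
open Fermat.Agent.LT.H556.A0 Fermat.Agent.LT.T5

noncomputable section
namespace Fermat.Agent.LT.T5.H32

variable {K : Type} [Field K] [NumberField K]

attribute [local instance] Fermat.Agent.LT.T5.instMeasurableSpaceG

variable {μ : Measure (G K)} {F : Set (G K)}

/-! ## Support, continuity -/

/-- The support of a convolution is contained in the product of the supports. -/
theorem support_conv_subset32 (μ : Measure (G K)) (φ₁ φ₂ : G K → ℂ) :
    Function.support (conv μ φ₁ φ₂) ⊆ Function.support φ₁ * Function.support φ₂ := by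
  intro g hg
  by_contra hcon
  apply hg
  unfold conv
  have h0 : (fun y => φ₁ y * φ₂ (y⁻¹ * g)) = fun _ => (0 : ℂ) := by
    funext y
    by_cases h1 : φ₁ y = 0
    · rw [h1, zero_mul]
    · by_cases h2 : φ₂ (y⁻¹ * g) = 0
      · rw [h2, mul_zero]
      · exact absurd ⟨y, h1, y⁻¹ * g, h2, by simp⟩ hcon
  rw [h0]
  simp

/-- Pointwise form: a point of the support of `φ₁ ⋆ φ₂` is a product. -/
theorem exists_of_conv_ne_zero32 {φ₁ φ₂ : G K → ℂ} {g : G K} (hg : conv μ φ₁ φ₂ g ≠ 0) :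
    ∃ y z : G K, φ₁ y ≠ 0 ∧ φ₂ z ≠ 0 ∧ g = y * z := by
  obtain ⟨y, hy, z, hz, hyz⟩ := support_conv_subset32 μ φ₁ φ₂ hg
  exact ⟨y, z, hy, hz, hyz.symm⟩

theorem hasCompactSupport_conv32 {φ₁ φ₂ : G K → ℂ} (h₁s : HasCompactSupport φ₁)
    (h₂s : HasCompactSupport φ₂) : HasCompactSupport (conv μ φ₁ φ₂) := by
  have hK : IsCompact (tsupport φ₁ * tsupport φ₂) := h₁s.isCompact.mul h₂s.isCompact
  refine HasCompactSupport.intro hK ?_
  intro g hg
  by_contra hne
  apply hg
  obtain ⟨y, z, hy, hz, rfl⟩ := exists_of_conv_ne_zero32 hne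
  exact ⟨y, subset_tsupport _ hy, z, subset_tsupport _ hz, rfl⟩

theorem continuous_conv32 (hF : IsFrame μ F) {φ₁ φ₂ : G K → ℂ} (h₁c : Continuous φ₁)
    (h₁s : HasCompactSupport φ₁) (h₂c : Continuous φ₂) : Continuous (conv μ φ₁ φ₂) := by
  have : BorelSpace (G K) := H277.borelSpaceG277
  have := hF.haar
  rw [← continuousOn_univ]
  unfold conv
  apply continuousOn_integral_of_compact_support (k := tsupport φ₁) h₁s.isCompact
  · apply Continuous.continuousOn
    have c1 : Continuous fun p : G K × G K => φ₁ p.2 := h₁c.comp continuous_snd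
    have c2 : Continuous fun p : G K × G K => φ₂ (p.2⁻¹ * p.1) :=
      h₂c.comp ((continuous_inv.comp continuous_snd).mul continuous_fst)
    exact c1.mul c2
  · intro p y _ hy
    rw [image_eq_zero_of_notMem_tsupport hy]
    simp

/-! ## The adjoint -/

theorem adjointFn_adjointFn32 (φ : G K → ℂ) : adjointFn (adjointFn φ) = φ := by
  funext g
  simp [adjointFn]

theorem continuous_adjointFn32 {φ : G K → ℂ} (h : Continuous φ) : Continuous (adjointFn φ) := by
  unfold adjointFn
  exact Complex.continuous_conj.comp (h.comp continuous_inv)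

theorem hasCompactSupport_adjointFn32 {φ : G K → ℂ} (h : HasCompactSupport φ) :
    HasCompactSupport (adjointFn φ) := by
  have h1 : HasCompactSupport (fun g : G K => φ g⁻¹) :=
    h.comp_homeomorph (Homeomorph.inv (G K))
  have h2 : adjointFn φ = (fun z : ℂ => conj z) ∘ (fun g : G K => φ g⁻¹) := rfl
  rw [h2]
  exact h1.comp_left (by simp)

/-- `(φ₁ ⋆ φ₂)* = φ₂* ⋆ φ₁*` (left invariance of the Haar measure). -/
theorem adjointFn_conv32 (hF : IsFrame μ F) (φ₁ φ₂ : G K → ℂ) :
    adjointFn (conv μ φ₁ φ₂) = conv μ (adjointFn φ₂) (adjointFn φ₁) := by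
  have : BorelSpace (G K) := H277.borelSpaceG277
  have := hF.haar
  funext g
  unfold adjointFn conv
  rw [← integral_conj]
  have h := integral_mul_left_eq_self (μ := μ)
    (fun y => conj (φ₂ y⁻¹) * conj (φ₁ (y⁻¹ * g)⁻¹)) g
  rw [← h]
  congr 1
  funext y
  simp only [map_mul, mul_inv_rev, inv_inv, inv_mul_cancel_left]
  rw [mul_comm]

/-! ## The two-sided ideal -/

/-- `R(β) Ψ` is Borel invariant if `Ψ` is. -/
theorem isBorelInvariantFn_Rconv32 (hF : IsFrame μ F) {β Ψ : G K → ℂ} (hβc : Continuous β)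
    (hβs : HasCompactSupport β) (hΨ : IsBorelInvariantFn Ψ) :
    IsBorelInvariantFn (Rconv μ β Ψ) := by
  refine ⟨H277.continuous_Rconv277 hF hβc hβs hΨ.cont, ?_, ?_, ?_⟩
  · intro n x hn g
    unfold Rconv
    congr 1
    funext y
    rw [mul_assoc, hΨ.unip n x hn]
  · intro t a b ht g
    unfold Rconv
    congr 1
    funext y
    rw [mul_assoc, hΨ.torus t a b ht]
  · obtain ⟨r, hr, hΨr⟩ := hΨ.ray
    refine ⟨r, hr, fun g => ?_⟩
    unfold Rconv
    congr 1
    funext y
    rw [mul_assoc, H277.ray_comm277 hr y, ← mul_assoc, hΨr]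

/-- **Left ideal**: `φ` Eisenstein-killing ⟹ `β ⋆ φ` Eisenstein-killing. -/
theorem isEK_conv_right32 (hF : IsFrame μ F) {β φ : G K → ℂ} (hβc : Continuous β)
    (hβs : HasCompactSupport β) (hφc : Continuous φ) (hφs : HasCompactSupport φ)
    (hφ : IsEK μ φ) : IsEK μ (conv μ β φ) := by
  intro Ψ hΨ x
  rw [← H277.Rconv_Rconv277 hF hβc hβs hφc hφs hΨ.cont x]
  unfold Rconv
  have h0 : (fun y => β y * ∫ u, φ u * Ψ (x * y * u) ∂μ) = fun _ => (0 : ℂ) := by
    funext y
    have := hφ Ψ hΨ (x * y)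
    unfold Rconv at this
    rw [this, mul_zero]
  rw [h0]
  simp

/-- **Right ideal**: `φ` Eisenstein-killing ⟹ `φ ⋆ β` Eisenstein-killing. -/
theorem isEK_conv_left32 (hF : IsFrame μ F) {β φ : G K → ℂ} (hβc : Continuous β)
    (hβs : HasCompactSupport β) (hφc : Continuous φ) (hφs : HasCompactSupport φ)
    (hφ : IsEK μ φ) : IsEK μ (conv μ φ β) := by
  intro Ψ hΨ x
  rw [← H277.Rconv_Rconv277 hF hφc hφs hβc hβs hΨ.cont x]
  exact hφ (Rconv μ β Ψ) (isBorelInvariantFn_Rconv32 hF hβc hβs hΨ) x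

/-- The adjoint of `φ ⋆ β` is Eisenstein-killing if the adjoint of `φ` is. -/
theorem isEK_adjoint_conv_left32 (hF : IsFrame μ F) {β φ : G K → ℂ} (hβc : Continuous β)
    (hβs : HasCompactSupport β) (hφc : Continuous φ) (hφs : HasCompactSupport φ)
    (hφ : IsEK μ (adjointFn φ)) : IsEK μ (adjointFn (conv μ φ β)) := by
  rw [adjointFn_conv32 hF]
  exact isEK_conv_right32 hF (continuous_adjointFn32 hβc) (hasCompactSupport_adjointFn32 hβs)
    (continuous_adjointFn32 hφc) (hasCompactSupport_adjointFn32 hφs) hφ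

/-- The adjoint of `β ⋆ φ` is Eisenstein-killing if the adjoint of `φ` is. -/
theorem isEK_adjoint_conv_right32 (hF : IsFrame μ F) {β φ : G K → ℂ} (hβc : Continuous β)
    (hβs : HasCompactSupport β) (hφc : Continuous φ) (hφs : HasCompactSupport φ)
    (hφ : IsEK μ (adjointFn φ)) : IsEK μ (adjointFn (conv μ β φ)) := by
  rw [adjointFn_conv32 hF]
  exact isEK_conv_left32 hF (continuous_adjointFn32 hβc) (hasCompactSupport_adjointFn32 hβs)
    (continuous_adjointFn32 hφc) (hasCompactSupport_adjointFn32 hφs) hφ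

/-! ## Associativity -/

/-- `(a ⋆ b) ⋆ c = a ⋆ (b ⋆ c)` for continuous functions, `a` and `b` with compact support. -/
theorem conv_assoc32 (hF : IsFrame μ F) {a b c : G K → ℂ} (hac : Continuous a)
    (has : HasCompactSupport a) (hbc : Continuous b) (hbs : HasCompactSupport b)
    (hcc : Continuous c) : conv μ (conv μ a b) c = conv μ a (conv μ b c) := by
  have : BorelSpace (G K) := H277.borelSpaceG277
  have := hF.haar
  funext g
  -- `(a ⋆ (b ⋆ c)) g = R(a) (R(b) ψ) 1` and `((a ⋆ b) ⋆ c) g = R(a ⋆ b) ψ 1`, `ψ x = c (x⁻¹ g)`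
  have key := H277.Rconv_Rconv277 hF hac has hbc hbs
    (ψ := fun x => c (x⁻¹ * g)) (hcc.comp (continuous_inv.mul continuous_const)) 1
  unfold Rconv at key
  simp only [one_mul] at key
  unfold conv
  unfold conv at key
  rw [← key]
  congr 1
  funext y
  congr 2
  funext u
  simp only [mul_inv_rev, mul_assoc]

end Fermat.Agent.LT.T5.H32

end
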