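import Fermat.Agent.LT.T5.H32.RegularZ
import Fermat.Agent.LT.T5.H32.EKIdeal

/-!
# Row LT, tower T5 (helper32): regular support and σ-regularity of convolutions

OFF-MAIN, ADDITIVE.  Vocabulary of `T5/Spec.lean` v4 + `T5/SpecZ.lean`.  Input for the fields
`reg_up` / `reg_down` of `T7.IsL2Data` (ruling of helper797, 15:22Z): the members of the families
are convolutions `ψ ⋆ ρ_{k,m}` (or `ρ_{k,m} ⋆ ψ`) of a function `ψ` whose support is Iwahori along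
the orbit and compact outside it (independent of `k, m`) with a function `ρ_{k,m}` supported in
`K_w^× · I diag(ϖ^m, 1) I` at `w = o 0`.

* `IsIwSupported32 l o C ψ` : every point of the support of `ψ` is Iwahori at `o 0, …, o (l-1)`
  and agrees outside the orbit with a point of `C`;
* `hasRegularSupportZ_conv_left32`, `hasRegularSupportZ_conv_right32`, `isIwSupported_conv32`;
* `exists_depth_conv32` : ONE depth `m₀` (depending on `C₁, C₂` only) such that `ψ ⋆ ρ` and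
  `ρ ⋆ ψ` are `T5.IsTwRegular` for every `m ≥ m₀`, every `ψ` Iwahori-supported in `C₁` and every
  `ρ` of regular support (up to a scalar at `o 0`) of depth `m` in `C₂`;
* `exists_depth_conv_id32` : the same downstairs (`σ = id`, `l = 1`, `k = ⊤`, any place `u`).
-/

set_option autoImplicit false
open IsDedekindDomain NumberField MeasureTheory
open scoped MatrixGroups ComplexConjugate Pointwise
open Fermat.Agent.LT.H556.A0 Fermat.Agent.LT.T5 Fermat.Agent.LT.H942 Fermat.Agent.LT.T5.H942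

noncomputable section
namespace Fermat.Agent.LT.T5.H32

variable {K : Type} [Field K] [NumberField K]

attribute [local instance] Fermat.Agent.LT.T5.instMeasurableSpaceG

variable {μ : Measure (G K)}

/-- Every point of the support of `ψ` is Iwahori at the places `o 0, …, o (l-1)` and agrees
outside the orbit with a point of `C`. -/
def IsIwSupported32 (l : ℕ) (o : ℕ → HeightOneSpectrum (𝓞 K)) (C : Set (G K))
    (ψ : G K → ℂ) : Prop :=
  ∀ y : G K, ψ y ≠ 0 →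
    (∀ j : ℕ, j < l → InIwahori (o j) y) ∧
      ∃ h ∈ C, AgreeOutside {v | ∃ j < l, v = o j} y h

/-- A function whose support is Iwahori along the orbit is Iwahori-supported in its (closed)
support. -/
theorem isIwSupported_of_support32 {l : ℕ} {o : ℕ → HeightOneSpectrum (𝓞 K)} {ψ : G K → ℂ}
    (h : ∀ y : G K, ψ y ≠ 0 → ∀ j : ℕ, j < l → InIwahori (o j) y) :
    IsIwSupported32 l o (tsupport ψ) ψ := fun y hy =>
  ⟨h y hy, y, subset_tsupport _ hy, agreeOutside_refl942 _ y⟩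

theorem IsIwSupported32.mono {l : ℕ} {o : ℕ → HeightOneSpectrum (𝓞 K)} {C C' : Set (G K)}
    {ψ : G K → ℂ} (h : IsIwSupported32 l o C ψ) (hCC : C ⊆ C') : IsIwSupported32 l o C' ψ :=
  fun y hy => ⟨(h y hy).1, by
    obtain ⟨c, hc, hyc⟩ := (h y hy).2
    exact ⟨c, hCC hc, hyc⟩⟩

theorem hasRegularSupportZ_mono32 {l : ℕ} {o : ℕ → HeightOneSpectrum (𝓞 K)} {m : ℕ}
    {C C' : Set (G K)} {ρ : G K → ℂ} (h : HasRegularSupportZ l o m C ρ) (hCC : C ⊆ C') :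
    HasRegularSupportZ l o m C' ρ := fun g hg =>
  ⟨(h g hg).1, (h g hg).2.1, by
    obtain ⟨c, hc, hgc⟩ := (h g hg).2.2
    exact ⟨c, hCC hc, hgc⟩⟩

/-- Iwahori on the left of the double coset (up to a scalar). -/
theorem inIwahoriCosetZ_mul_left32 {w : HeightOneSpectrum (𝓞 K)} {m : ℕ} {y h : G K}
    (hy : InIwahori w y) (hh : InIwahoriCosetZ w m h) : InIwahoriCosetZ w m (y * h) := by
  obtain ⟨k₁, k₂, c, d, hk₁, hk₂, hd, hcd, hfh⟩ := hh
  refine ⟨y * k₁, k₂, c, d, inIwahori_mul942 w hy hk₁, hk₂, hd, hcd, ?_⟩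
  rw [finComp_mulZ, hfh, finComp_mulZ]
  simp only [Matrix.mul_assoc]

/-- Iwahori on the right of the double coset (up to a scalar). -/
theorem inIwahoriCosetZ_mul_right32 {w : HeightOneSpectrum (𝓞 K)} {m : ℕ} {y h : G K}
    (hh : InIwahoriCosetZ w m h) (hy : InIwahori w y) : InIwahoriCosetZ w m (h * y) := by
  obtain ⟨k₁, k₂, c, d, hk₁, hk₂, hd, hcd, hfh⟩ := hh
  refine ⟨k₁, k₂ * y, c, d, hk₁, inIwahori_mul942 w hk₂ hy, hd, hcd, ?_⟩
  rw [finComp_mulZ, hfh, finComp_mulZ]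
  simp only [Matrix.mul_assoc]

/-- `ψ ⋆ ρ` has regular support if `ψ` is Iwahori-supported and `ρ` has regular support. -/
theorem hasRegularSupportZ_conv_left32 {l : ℕ} {o : ℕ → HeightOneSpectrum (𝓞 K)} {m : ℕ}
    {C₁ C₂ : Set (G K)} {ψ ρ : G K → ℂ} (hl : 0 < l) (hψ : IsIwSupported32 l o C₁ ψ)
    (hρ : HasRegularSupportZ l o m C₂ ρ) :
    HasRegularSupportZ l o m (C₁ * C₂) (conv μ ψ ρ) := by
  intro g hg
  obtain ⟨y, z, hy, hz, rfl⟩ := exists_of_conv_ne_zero32 hg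
  obtain ⟨hyI, c₁, hc₁, hyc⟩ := hψ y hy
  obtain ⟨hzZ, hzI, c₂, hc₂, hzc⟩ := hρ z hz
  refine ⟨inIwahoriCosetZ_mul_left32 (hyI 0 hl) hzZ,
    fun j hj hjl => inIwahori_mul942 (o j) (hyI j hjl) (hzI j hj hjl),
    c₁ * c₂, ⟨c₁, hc₁, c₂, hc₂, rfl⟩, agreeOutside_mul942 _ hyc hzc⟩

/-- `ρ ⋆ ψ` has regular support if `ψ` is Iwahori-supported and `ρ` has regular support. -/
theorem hasRegularSupportZ_conv_right32 {l : ℕ} {o : ℕ → HeightOneSpectrum (𝓞 K)} {m : ℕ}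
    {C₁ C₂ : Set (G K)} {ψ ρ : G K → ℂ} (hl : 0 < l) (hψ : IsIwSupported32 l o C₁ ψ)
    (hρ : HasRegularSupportZ l o m C₂ ρ) :
    HasRegularSupportZ l o m (C₂ * C₁) (conv μ ρ ψ) := by
  intro g hg
  obtain ⟨z, y, hz, hy, rfl⟩ := exists_of_conv_ne_zero32 hg
  obtain ⟨hyI, c₁, hc₁, hyc⟩ := hψ y hy
  obtain ⟨hzZ, hzI, c₂, hc₂, hzc⟩ := hρ z hz
  refine ⟨inIwahoriCosetZ_mul_right32 hzZ (hyI 0 hl),
    fun j hj hjl => inIwahori_mul942 (o j) (hzI j hj hjl) (hyI j hjl),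
    c₂ * c₁, ⟨c₂, hc₂, c₁, hc₁, rfl⟩, agreeOutside_mul942 _ hzc hyc⟩

/-- Convolutions of Iwahori-supported functions are Iwahori-supported. -/
theorem isIwSupported_conv32 {l : ℕ} {o : ℕ → HeightOneSpectrum (𝓞 K)}
    {C₁ C₂ : Set (G K)} {ψ₁ ψ₂ : G K → ℂ} (h₁ : IsIwSupported32 l o C₁ ψ₁)
    (h₂ : IsIwSupported32 l o C₂ ψ₂) : IsIwSupported32 l o (C₁ * C₂) (conv μ ψ₁ ψ₂) := by
  intro g hg
  obtain ⟨y, z, hy, hz, rfl⟩ := exists_of_conv_ne_zero32 hg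
  obtain ⟨hyI, c₁, hc₁, hyc⟩ := h₁ y hy
  obtain ⟨hzI, c₂, hc₂, hzc⟩ := h₂ z hz
  exact ⟨fun j hjl => inIwahori_mul942 (o j) (hyI j hjl) (hzI j hjl),
    c₁ * c₂, ⟨c₁, hc₁, c₂, hc₂, rfl⟩, agreeOutside_mul942 _ hyc hzc⟩

/-- Regular support is stable under convolution with Iwahori-supported functions on both
sides. -/
theorem hasRegularSupportZ_conv_both32 {l : ℕ} {o : ℕ → HeightOneSpectrum (𝓞 K)} {m : ℕ}
    {C₁ C₂ C₃ : Set (G K)} {ψ ρ χ : G K → ℂ} (hl : 0 < l) (hψ : IsIwSupported32 l o C₁ ψ)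
    (hρ : HasRegularSupportZ l o m C₂ ρ) (hχ : IsIwSupported32 l o C₃ χ) :
    HasRegularSupportZ l o m (C₁ * C₂ * C₃) (conv μ (conv μ ψ ρ) χ) :=
  hasRegularSupportZ_conv_right32 hl hχ (hasRegularSupportZ_conv_left32 hl hψ hρ)

/-- **σ-regularity of the members of a family `ψ ⋆ ρ_m`, `ρ_m ⋆ ψ`**: one depth for all members.
The depth depends on the orbit and on the compact sets only (NOT on the central shift, which is
inside `HasRegularSupportZ`). -/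
theorem exists_depth_conv32 {s : AdelicAut K} {l : ℕ} {k : Subfield K}
    (hc : IsCyclicOfDegree s l k) (o : ℕ → HeightOneSpectrum (𝓞 K))
    (ho : ∀ j : ℕ, PlaceRel s (o j) (o (j + 1)))
    (hne : ∀ j : ℕ, 0 < j → j < l → o j ≠ o 0)
    {C₁ C₂ : Set (G K)} (hC₁ : IsCompact C₁) (hC₂ : IsCompact C₂) (μ : Measure (G K)) :
    ∃ m₀ : ℕ, ∀ m : ℕ, m₀ ≤ m → ∀ ψ ρ : G K → ℂ,
      IsIwSupported32 l o C₁ ψ → HasRegularSupportZ l o m C₂ ρ →
        IsTwRegular s l k (conv μ ψ ρ) ∧ IsTwRegular s l k (conv μ ρ ψ) := by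
  obtain ⟨m₁, h₁⟩ := regularOfIwahoriZ32 s l k hc o (C₁ * C₂) (hC₁.mul hC₂) ho hne
  obtain ⟨m₂, h₂⟩ := regularOfIwahoriZ32 s l k hc o (C₂ * C₁) (hC₂.mul hC₁) ho hne
  refine ⟨max m₁ m₂, fun m hm ψ ρ hψ hρ => ⟨?_, ?_⟩⟩
  · exact h₁ m (le_trans (le_max_left _ _) hm) _ (hasRegularSupportZ_conv_left32 hc.pos hψ hρ)
  · exact h₂ m (le_trans (le_max_right _ _) hm) _ (hasRegularSupportZ_conv_right32 hc.pos hψ hρ)

/-- The same with Iwahori-supported functions on both sides: `ψ ⋆ ρ_m ⋆ χ`. -/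
theorem exists_depth_conv_both32 {s : AdelicAut K} {l : ℕ} {k : Subfield K}
    (hc : IsCyclicOfDegree s l k) (o : ℕ → HeightOneSpectrum (𝓞 K))
    (ho : ∀ j : ℕ, PlaceRel s (o j) (o (j + 1)))
    (hne : ∀ j : ℕ, 0 < j → j < l → o j ≠ o 0)
    {C₁ C₂ C₃ : Set (G K)} (hC₁ : IsCompact C₁) (hC₂ : IsCompact C₂) (hC₃ : IsCompact C₃)
    (μ : Measure (G K)) :
    ∃ m₀ : ℕ, ∀ m : ℕ, m₀ ≤ m → ∀ ψ ρ χ : G K → ℂ,
      IsIwSupported32 l o C₁ ψ → HasRegularSupportZ l o m C₂ ρ → IsIwSupported32 l o C₃ χ →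
        IsTwRegular s l k (conv μ (conv μ ψ ρ) χ) := by
  obtain ⟨m₁, h₁⟩ :=
    regularOfIwahoriZ32 s l k hc o (C₁ * C₂ * C₃) ((hC₁.mul hC₂).mul hC₃) ho hne
  exact ⟨m₁, fun m hm ψ ρ χ hψ hρ hχ =>
    h₁ m hm _ (hasRegularSupportZ_conv_both32 hc.pos hψ hρ hχ)⟩

/-! ## Downstairs: `σ = id`, `l = 1`, `k = ⊤` -/

theorem placeRel_id32 (u : HeightOneSpectrum (𝓞 K)) : PlaceRel (AdelicAut.id K) u u := by
  unfold PlaceRel
  have h : (NumberField.RingOfIntegers.mapRingEquiv (AdelicAut.id K).σ : 𝓞 K →+* 𝓞 K)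
      = RingHom.id (𝓞 K) := by
    ext x
    rfl
  have h2 : Ideal.map (NumberField.RingOfIntegers.mapRingEquiv (AdelicAut.id K).σ) u.asIdeal
      = Ideal.map (RingHom.id (𝓞 K)) u.asIdeal := by
    apply le_antisymm
    · rw [Ideal.map_le_iff_le_comap]
      intro x hx
      exact Ideal.mem_map_of_mem (RingHom.id (𝓞 K)) hx
    · rw [Ideal.map_le_iff_le_comap]
      intro x hx
      exact Ideal.mem_map_of_mem _ hx
  rw [h2, Ideal.map_id]

/-- **Regularity downstairs** (`T5.IsTwRegular (T5.AdelicAut.id K) 1 ⊤`), one depth for the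
family. -/
theorem exists_depth_conv_id32 (u : HeightOneSpectrum (𝓞 K))
    {C₁ C₂ : Set (G K)} (hC₁ : IsCompact C₁) (hC₂ : IsCompact C₂) (μ : Measure (G K)) :
    ∃ m₀ : ℕ, ∀ m : ℕ, m₀ ≤ m → ∀ ψ ρ : G K → ℂ,
      IsIwSupported32 1 (fun _ => u) C₁ ψ → HasRegularSupportZ 1 (fun _ => u) m C₂ ρ →
        IsTwRegular (AdelicAut.id K) 1 ⊤ (conv μ ψ ρ) ∧
          IsTwRegular (AdelicAut.id K) 1 ⊤ (conv μ ρ ψ) :=
  exists_depth_conv32 isCyclicOfDegree_id (fun _ => u) (fun _ => placeRel_id32 u)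
    (fun j hj hj1 => absurd hj1 (by omega)) hC₁ hC₂ μ

end Fermat.Agent.LT.T5.H32

end
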