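import Mathlib
import Fermat.Agent.LT.T5.Spec
import Fermat.Agent.LT.T5.SpecZ
import Fermat.Agent.LT.T5.H942.RegularOfIwahori

/-!
# Row LT, tower T5, leaf T5.09Z `RegularOfIwahoriZ` — VERBATIM, UNCONDITIONAL (helper32)

OFF-MAIN.  `regularOfIwahoriZ32 s l k : T5.RegularOfIwahoriZ s l k` for EVERY `s : AdelicAut K`,
`l`, `k`, against `LT/T5/SpecZ.lean` (additive to `Spec.lean` v4 f2d97e70).  Requested by the chief
of T1-T7 (helper797, `T7/Reg.lean`): regular support up to a CENTRAL SHIFT at the regular place.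

THE PROOF IS THE PROOF OF helper942 (`LT/T5/H942/RegularOfIwahori.lean`, `regularOfIwahori942`),
copied line by line; only step (c) changes: at `o 0` the norm `N(g)` is
`d · (k₁ diag(c, 1) k₂')` with `c = c₀ / d`, and `tr² / det` does not see the scalar `d`.
-/

set_option autoImplicit false

open IsDedekindDomain NumberField

noncomputable section

namespace Fermat.Agent.LT.T5.H32

open Fermat.Agent.LT.H556.A0 Fermat.Agent.LT.T5 Fermat.Agent.LT.H942 Fermat.Agent.LT.T5.H942

variable {K : Type} [Field K] [NumberField K]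

/-- **T5.09Z `RegularOfIwahoriZ`, verbatim and unconditional** (the proof of helper942 for
T5.09, with the scalar `d` at `o 0` carried through step (c)). -/
theorem regularOfIwahoriZ32 (s : AdelicAut K) (l : ℕ) (k : Subfield K) :
    RegularOfIwahoriZ s l k := by
  classical
  intro hc o C hC ho _hne
  have hl : 0 < l := hc.pos
  -- the compact set `N(C)` and its bounds
  have hC' : IsCompact (normG942 s l '' C) := hC.image (continuous_normG942 s l)
  obtain ⟨S, B, hB, hSB⟩ := exists_bound_of_compact942 hC'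
  set O : Finset (HeightOneSpectrum (𝓞 K)) := (Finset.range l).image o with hOdef
  have hOmem : ∀ v : HeightOneSpectrum (𝓞 K), v ∈ O ↔ ∃ j < l, v = o j := by
    intro v
    rw [hOdef, Finset.mem_image]
    constructor
    · rintro ⟨j, hj, rfl⟩
      exact ⟨j, Finset.mem_range.1 hj, rfl⟩
    · rintro ⟨j, hj, rfl⟩
      exact ⟨j, Finset.mem_range.2 hj, rfl⟩
  set M : ℝ := (B + 3) ^ (Module.finrank ℚ K + (S ∪ O).card) with hMdef
  have hM1 : 1 ≤ M := one_le_pow₀ (by linarith)
  have hMpos : 0 < M := lt_of_lt_of_le one_pos hM1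
  -- the threshold
  obtain ⟨ρ, hρ0, hρ1, hρ⟩ := exists_norm_base942 (o 0)
  obtain ⟨m₀, hm₀⟩ := exists_pow_lt_of_lt_one (inv_pos.2 hMpos) hρ1
  refine ⟨max m₀ 1, fun m hm φ hφ x δ z hz hne0 => ?_⟩
  have hm1 : 1 ≤ m := le_trans (le_max_right _ _) hm
  have hmm₀ : m₀ ≤ m := le_trans (le_max_left _ _) hm
  have hρm : ρ ^ m < M⁻¹ :=
    lt_of_le_of_lt (pow_le_pow_of_le_one hρ0.le hρ1.le hmm₀) hm₀
  have hρm1 : ρ ^ m < 1 := pow_lt_one₀ hρ0.le hρ1 (by omega)
  -- the point of the support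
  set g : G K := x⁻¹ * ratG δ * s.onG x * z with hgdef
  obtain ⟨⟨k₁, k₂, c₀, d, hk₁, hk₂, hd0', hcv₀, hgc⟩, hiw, h, hhC, hagree⟩ := hφ g hne0
  set c : (o 0).adicCompletion K := c₀ / d with hcdef
  have hcv : Valued.v c = WithZero.exp (-(m : ℤ)) := by
    rw [hcdef, map_div₀, hcv₀, mul_div_assoc, div_self ((map_ne_zero _).2 hd0'), mul_one]
  have hcn : ‖c‖ = ρ ^ m := hρ c m hcv
  -- (a) the norm
  obtain ⟨Z, hZ, hN⟩ := normG_twisted942 s l k hc x δ hz
  set γ : GL (Fin 2) K := s.normUpTo l δ with hγdef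
  set t : K := (γ : Matrix (Fin 2) (Fin 2) K).trace ^ 2 / (γ : Matrix (Fin 2) (Fin 2) K).det
    with htdef
  have hfr : ∀ v : HeightOneSpectrum (𝓞 K), FinitePlace.mk v t =
      ‖(finComp v (normG942 s l g)).trace‖ ^ 2 / ‖(finComp v (normG942 s l g)).det‖ := by
    intro v
    rw [hN, ratio_mul_scalar_fin942 v _ hZ, ← finitePlace_ratio_eq942 v γ x]
  have hir : ∀ w : InfinitePlace K, w t =
      ‖(infComp w (normG942 s l g)).trace‖ ^ 2 / ‖(infComp w (normG942 s l g)).det‖ := by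
    intro w
    rw [hN, ratio_mul_scalar_inf942 w _ hZ, ← infinitePlace_ratio_eq942 w γ x]
  -- (b) outside the orbit
  have hag := agreeOutside_normG942 s l k hc o ho hagree l
  obtain ⟨hint, hbf, hbi⟩ := hSB (normG942 s l h) ⟨h, hhC, rfl⟩
  have hnotO : ∀ v : HeightOneSpectrum (𝓞 K), v ∉ O →
      v ∉ {v : HeightOneSpectrum (𝓞 K) | ∃ j < l, v = o j} := fun v hv hv' =>
    hv ((hOmem v).2 hv')
  have hout : ∀ v : HeightOneSpectrum (𝓞 K), v ∉ O → v ∉ S → FinitePlace.mk v t ≤ 1 := by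
    intro v hvO hvS
    rw [hfr v, hag.2 v (hnotO v hvO), div_le_one (norm_det_finComp_pos942 v _)]
    exact regular_adelic_of_integral942 v _ (hint v hvS).1 (hint v hvS).2
  have hSb : ∀ v ∈ S, v ∉ O → FinitePlace.mk v t ≤ B := by
    intro v _ hvO
    rw [hfr v, hag.2 v (hnotO v hvO), div_le_iff₀ (norm_det_finComp_pos942 v _)]
    exact hbf v
  have hinfb : ∀ w : InfinitePlace K, w t ≤ B := by
    intro w
    rw [hir w, hag.1 w, div_le_iff₀ (norm_det_infComp_pos942 w _)]
    exact hbi w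
  -- (c) at `o 0`
  have hu : FinitePlace.mk (o 0) t = (ρ ^ m)⁻¹ := by
    have hsplit : normG942 s l g = g * s.onG (normG942 s (l - 1) g) := by
      have e : l = (l - 1) + 1 := by omega
      conv_lhs => rw [e]
      rfl
    have hR := inIwahori_onG_normG942 s l k hc o ho g hiw
    have hk₂R : InIwahori (o 0) (k₂ * s.onG (normG942 s (l - 1) g)) :=
      inIwahori_mul942 (o 0) hk₂ hR
    have hdiag : (!![c₀, 0; 0, d] : Matrix (Fin 2) (Fin 2) ((o 0).adicCompletion K))
        = d • Matrix.diagonal ![c, 1] := by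
      ext i j
      fin_cases i <;> fin_cases j <;> simp [hcdef, mul_div_cancel₀ _ hd0']
    have hcomp : finComp (o 0) (normG942 s l g)
        = d • (finComp (o 0) k₁ * Matrix.diagonal ![c, 1]
          * finComp (o 0) (k₂ * s.onG (normG942 s (l - 1) g))) := by
      rw [hsplit, finComp_mul942, hgc, hdiag, finComp_mul942]
      simp only [Matrix.mul_smul, Matrix.smul_mul, Matrix.mul_assoc]
    have hc1 : Valued.v c < 1 := by
      rw [← Valued.toNormedField.norm_lt_one_iff, hcn]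
      exact hρm1
    have hI₁ := isIwahoriMat_of_inIwahori942 (o 0) hk₁
    have hI₂ := isIwahoriMat_of_inIwahori942 (o 0) hk₂R
    have htr1 : ‖(finComp (o 0) k₁ * Matrix.diagonal ![c, 1]
        * finComp (o 0) (k₂ * s.onG (normG942 s (l - 1) g))).trace‖ = 1 :=
      (norm_eq_one_iff_valued942 (o 0) _).2 (iwahori_regular_trace hI₁ hI₂ hc1)
    have hdet1 : ‖(finComp (o 0) k₁ * Matrix.diagonal ![c, 1]
        * finComp (o 0) (k₂ * s.onG (normG942 s (l - 1) g))).det‖ = ‖c‖ := by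
      rw [Matrix.det_mul, Matrix.det_mul, Matrix.det_diagonal, norm_mul, norm_mul,
        (norm_eq_one_iff_valued942 (o 0) _).2 hI₁.det,
        (norm_eq_one_iff_valued942 (o 0) _).2 hI₂.det]
      simp [Fin.prod_univ_two]
    have hdn : ‖d‖ ≠ 0 := norm_ne_zero_iff.2 hd0'
    rw [hfr (o 0), hcomp, Matrix.trace_smul, Matrix.det_smul, Fintype.card_fin, smul_eq_mul,
      norm_mul, norm_mul, norm_pow, htr1, hdet1, hcn]
    field_simp
  -- (d) the characteristic polynomial of `γ` has no root in `k`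
  have hτσ := trace_normUpTo_fixed942 s l k hc δ
  have hdσ := det_normUpTo_fixed942 s l k hc δ
  have hτk : (γ : Matrix (Fin 2) (Fin 2) K).trace ∈ k := (hc.fixed _).2 hτσ
  have hdk : (γ : Matrix (Fin 2) (Fin 2) K).det ∈ k := (hc.fixed _).2 hdσ
  have hd0 : (γ : Matrix (Fin 2) (Fin 2) K).det ≠ 0 := (Matrix.isUnits_det_units γ).ne_zero
  refine isEllRegOver_of_no_root942 k γ ⟨_, hτk⟩ ⟨_, hdk⟩ rfl rfl fun lam hlam => ?_
  -- a root `lam ∈ k`
  have hlamK : (lam : K) ^ 2 - (γ : Matrix (Fin 2) (Fin 2) K).trace * (lam : K)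
      + (γ : Matrix (Fin 2) (Fin 2) K).det = 0 := by
    have := congrArg (Subtype.val : k → K) hlam
    simpa using this
  set τ : K := (γ : Matrix (Fin 2) (Fin 2) K).trace with hτdef
  set d : K := (γ : Matrix (Fin 2) (Fin 2) K).det with hddef
  have hx0 : (lam : K) ≠ 0 := by
    intro h0
    apply hd0
    rw [h0] at hlamK
    simpa using hlamK
  have hprod : (lam : K) * (τ - lam) = d := by linear_combination -hlamK
  have hy0 : τ - (lam : K) ≠ 0 := by
    intro h0
    apply hd0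
    rw [← hprod, h0, mul_zero]
  set r : K := (τ - lam) / lam with hrdef
  have hr0 : r ≠ 0 := div_ne_zero hy0 hx0
  have hrk : r ∈ k := k.div_mem (k.sub_mem hτk lam.2) lam.2
  have hrσ : s.σ r = r := (hc.fixed r).1 hrk
  have hrσ' : s.σ r⁻¹ = r⁻¹ := by rw [map_inv₀, hrσ]
  have htr : t = r + 2 + r⁻¹ := by
    rw [htdef, ← hprod, hrdef]
    field_simp
    ring
  have hcore := orbit_regular_core942 (o 0) O S hB hr0
    (fun v hv => by
      obtain ⟨j, -, rfl⟩ := (hOmem v).1 hv
      exact ⟨one_lt_orbit942 s o ho hrσ j, one_lt_orbit942 s o ho hrσ' j⟩)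
    (fun v hvO hvS => by rw [← htr]; exact hout v hvO hvS)
    (fun v hv hvO => by rw [← htr]; exact hSb v hv hvO)
    (fun w => by rw [← htr]; exact hinfb w)
  rw [← htr, hu] at hcore
  -- `(ρ^m)⁻¹ ≤ M` contradicts `ρ^m < M⁻¹`
  have hρmpos : 0 < ρ ^ m := pow_pos hρ0 m
  have : M⁻¹ ≤ ρ ^ m := by
    rw [inv_le_comm₀ hMpos hρmpos]
    exact hcore
  exact absurd hρm (not_lt.2 this)

/-- The frame of T4. -/
theorem regularOfIwahoriZ_id32 : RegularOfIwahoriZ (AdelicAut.id K) 1 ⊤ :=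
  regularOfIwahoriZ32 _ _ _

/-- T5.09 again, from T5.09Z. -/
theorem regularOfIwahori32 (s : AdelicAut K) (l : ℕ) (k : Subfield K) : RegularOfIwahori s l k :=
  regularOfIwahori_of_Z (regularOfIwahoriZ32 s l k)

end Fermat.Agent.LT.T5.H32

end
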