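import Fermat.Agent.LT.T5.H32.RegConv

/-!
# Row LT, tower T5 (helper32): right translates, finite sums and right averages of test functions

OFF-MAIN, ADDITIVE.  Vocabulary of `T5/Spec.lean` only.  KIT for the STEP nodes of the first pair
(`T7/B981/PairASpec.lean`: `φ' = φ(· z)`, `φ' = ∑_h φ(· z⁻¹ h)`, `φ' = ∫∫ φ(· Y(α,β)) sin β`)
and for every construction which replaces a test function by a combination of its right
translates.  One field, one frame `(μ, F)`; NOTHING is asked of the translating elements.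

* `Rconv_shift32`, `Rconv_lshift32` : `R(φ(· h)) e = R(φ) (e(· h⁻¹))`,
  `R(ψ(h ·)) e (x) = R(ψ) e (x h⁻¹)`;
* `isEK_shift32`, `isEK_adjoint_shift32` : Eisenstein-killing (of `φ`, of the adjoint) is stable
  under right translation; `isEK_lshift32` : under left translation;
* `isEK_sum32`, `isEK_adjoint_sum32` : finite linear combinations of right translates;
* `rightAvg32 ν k c Y φ g = ∫ a in k, c a * φ (g * Y a) ∂ν` (compact `k`, continuous `c`, `Y`):
  `continuous_rightAvg32`, `hasCompactSupport_rightAvg32`, `Rconv_rightAvg32`,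
  `isEK_rightAvg32`, `isEK_adjoint_rightAvg32`, `isIwSupported_rightAvg32`;
* `isIwSupported_shift32` : Iwahori support along an orbit is stable under right translation by
  an element which is trivial at the places of the orbit.
-/

set_option autoImplicit false
set_option linter.unusedSectionVars false
open IsDedekindDomain NumberField MeasureTheory
open scoped MatrixGroups ComplexConjugate Pointwise
open Fermat.Agent.LT.H556.A0 Fermat.Agent.LT.T5 Fermat.Agent.LT.H942 Fermat.Agent.LT.T5.H942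

noncomputable section
namespace Fermat.Agent.LT.T5.H32

variable {K : Type} [Field K] [NumberField K]

attribute [local instance] Fermat.Agent.LT.T5.instMeasurableSpaceG

variable {μ : Measure (G K)} {F : Set (G K)}

/-! ## 1. Translates -/

/-- The Haar measure of a frame is right invariant (instance form). -/
theorem isMulRightInvariant_of_frame32 (hF : IsFrame μ F) : μ.IsMulRightInvariant := by
  have : BorelSpace (G K) := H277.borelSpaceG277
  refine ⟨fun g => ?_⟩
  ext A hA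
  rw [Measure.map_apply (measurable_mul_const g) hA]
  exact hF.right_inv g A hA

/-- Right translates of Borel-invariant functions are Borel-invariant (the ray generator is
central). -/
theorem isBorelInvariantFn_shift32 {Ψ : G K → ℂ} (hΨ : IsBorelInvariantFn Ψ) (h : G K) :
    IsBorelInvariantFn (fun y => Ψ (y * h)) := by
  refine ⟨hΨ.cont.comp (continuous_id.mul continuous_const), ?_, ?_, ?_⟩
  · intro n x hn g
    show Ψ (n * g * h) = Ψ (g * h)
    rw [mul_assoc, hΨ.unip n x hn]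
  · intro t a b ht g
    show Ψ (ratG t * g * h) = Ψ (g * h)
    rw [mul_assoc, hΨ.torus t a b ht]
  · obtain ⟨r, hr, hΨr⟩ := hΨ.ray
    refine ⟨r, hr, fun g => ?_⟩
    show Ψ (g * r * h) = Ψ (g * h)
    rw [mul_assoc, H277.ray_comm277 hr h, ← mul_assoc, hΨr]

/-- `R(φ(· h)) e = R(φ) (e(· h⁻¹))`. -/
theorem Rconv_shift32 (hF : IsFrame μ F) (φ e : G K → ℂ) (h x : G K) :
    Rconv μ (fun g => φ (g * h)) e x = Rconv μ φ (fun y => e (y * h⁻¹)) x := by
  have : BorelSpace (G K) := H277.borelSpaceG277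
  have := isMulRightInvariant_of_frame32 hF
  unfold Rconv
  have hh := integral_mul_right_eq_self (μ := μ) (fun y => φ y * e (x * y * h⁻¹)) h
  rw [← hh]
  congr 1
  funext y
  simp only [mul_assoc, mul_inv_cancel, mul_one]

/-- `R(ψ(h ·)) e (x) = R(ψ) e (x h⁻¹)`. -/
theorem Rconv_lshift32 (hF : IsFrame μ F) (ψ e : G K → ℂ) (h x : G K) :
    Rconv μ (fun g => ψ (h * g)) e x = Rconv μ ψ e (x * h⁻¹) := by
  have : BorelSpace (G K) := H277.borelSpaceG277
  have := hF.haar
  unfold Rconv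
  have hh := integral_mul_left_eq_self (μ := μ) (fun y => ψ y * e (x * h⁻¹ * y)) h
  rw [← hh]
  congr 1
  funext y
  simp only [mul_assoc, inv_mul_cancel_left]

/-- **Eisenstein-killing is stable under right translation.** -/
theorem isEK_shift32 (hF : IsFrame μ F) {φ : G K → ℂ} (hφ : IsEK μ φ) (h : G K) :
    IsEK μ (fun g => φ (g * h)) := by
  intro Ψ hΨ x
  rw [Rconv_shift32 hF]
  exact hφ _ (isBorelInvariantFn_shift32 hΨ h⁻¹) x

/-- **Eisenstein-killing is stable under left translation.** -/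
theorem isEK_lshift32 (hF : IsFrame μ F) {ψ : G K → ℂ} (hψ : IsEK μ ψ) (h : G K) :
    IsEK μ (fun g => ψ (h * g)) := by
  intro Ψ hΨ x
  rw [Rconv_lshift32 hF]
  exact hψ Ψ hΨ _

/-- The adjoint of a right translate is a left translate of the adjoint. -/
theorem adjointFn_shift32 (φ : G K → ℂ) (h : G K) :
    adjointFn (fun g => φ (g * h)) = fun g => adjointFn φ (h⁻¹ * g) := by
  funext g
  simp only [adjointFn, mul_inv_rev, inv_inv]

/-- **The adjoint of a right translate is Eisenstein-killing if the adjoint is.** -/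
theorem isEK_adjoint_shift32 (hF : IsFrame μ F) {φ : G K → ℂ} (hφ : IsEK μ (adjointFn φ))
    (h : G K) : IsEK μ (adjointFn (fun g => φ (g * h))) := by
  rw [adjointFn_shift32]
  exact isEK_lshift32 hF hφ h⁻¹

theorem continuous_shift32 {φ : G K → ℂ} (hφ : Continuous φ) (h : G K) :
    Continuous (fun g => φ (g * h)) :=
  hφ.comp (continuous_id.mul continuous_const)

theorem hasCompactSupport_shift32 {φ : G K → ℂ} (hφ : HasCompactSupport φ) (h : G K) :
    HasCompactSupport (fun g => φ (g * h)) :=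
  hφ.comp_homeomorph (Homeomorph.mulRight h)

/-! ## 2. Finite linear combinations -/

theorem Rconv_smul32 (c : ℂ) (φ e : G K → ℂ) (x : G K) :
    Rconv μ (fun g => c * φ g) e x = c * Rconv μ φ e x := by
  unfold Rconv
  rw [← integral_const_mul]
  congr 1
  funext y
  ring

theorem integrable_Rconv32 (hF : IsFrame μ F) {φ e : G K → ℂ} (hφc : Continuous φ)
    (hφs : HasCompactSupport φ) (he : Continuous e) (x : G K) :
    Integrable (fun y => φ y * e (x * y)) μ := by
  have : BorelSpace (G K) := H277.borelSpaceG277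
  have := hF.haar
  have hc : Continuous fun y => φ y * e (x * y) :=
    hφc.mul (he.comp (continuous_const.mul continuous_id))
  exact hc.integrable_of_hasCompactSupport hφs.mul_right

theorem Rconv_sum32 (hF : IsFrame μ F) {ι : Type} (s : Finset ι) (φ : ι → G K → ℂ)
    (hφc : ∀ i ∈ s, Continuous (φ i)) (hφs : ∀ i ∈ s, HasCompactSupport (φ i))
    {e : G K → ℂ} (he : Continuous e) (x : G K) :
    Rconv μ (fun g => ∑ i ∈ s, φ i g) e x = ∑ i ∈ s, Rconv μ (φ i) e x := by
  unfold Rconv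
  rw [← integral_finset_sum s fun i hi => integrable_Rconv32 hF (hφc i hi) (hφs i hi) he x]
  congr 1
  funext y
  rw [Finset.sum_mul]

theorem isEK_smul32 {φ : G K → ℂ} (hφ : IsEK μ φ) (c : ℂ) : IsEK μ (fun g => c * φ g) := by
  intro Ψ hΨ x
  rw [Rconv_smul32, hφ Ψ hΨ x, mul_zero]

/-- **Finite sums of Eisenstein-killing functions are Eisenstein-killing.** -/
theorem isEK_sum32 (hF : IsFrame μ F) {ι : Type} (s : Finset ι) (φ : ι → G K → ℂ)
    (hφc : ∀ i ∈ s, Continuous (φ i)) (hφs : ∀ i ∈ s, HasCompactSupport (φ i))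
    (hφ : ∀ i ∈ s, IsEK μ (φ i)) : IsEK μ (fun g => ∑ i ∈ s, φ i g) := by
  intro Ψ hΨ x
  rw [Rconv_sum32 hF s φ hφc hφs hΨ.cont x]
  exact Finset.sum_eq_zero fun i hi => hφ i hi Ψ hΨ x

theorem adjointFn_sum32 {ι : Type} (s : Finset ι) (φ : ι → G K → ℂ) :
    adjointFn (fun g => ∑ i ∈ s, φ i g) = fun g => ∑ i ∈ s, adjointFn (φ i) g := by
  funext g
  simp only [adjointFn, map_sum]

theorem adjointFn_smul32 (c : ℂ) (φ : G K → ℂ) :
    adjointFn (fun g => c * φ g) = fun g => conj c * adjointFn φ g := by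
  funext g
  simp only [adjointFn, map_mul]

/-- **Finite linear combinations of right translates**: `φ'(g) = ∑_i c_i φ(g h_i)` is
Eisenstein-killing if `φ` is. -/
theorem isEK_sum_shift32 (hF : IsFrame μ F) {ι : Type} (s : Finset ι) (c : ι → ℂ)
    (h : ι → G K) {φ : G K → ℂ} (hφc : Continuous φ) (hφs : HasCompactSupport φ)
    (hφ : IsEK μ φ) : IsEK μ (fun g => ∑ i ∈ s, c i * φ (g * h i)) := by
  refine isEK_sum32 hF s (fun i g => c i * φ (g * h i)) (fun i _ => ?_) (fun i _ => ?_)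
    (fun i _ => ?_)
  · exact continuous_const.mul (continuous_shift32 hφc (h i))
  · exact (hasCompactSupport_shift32 hφs (h i)).mul_left
  · exact isEK_smul32 (isEK_shift32 hF hφ (h i)) (c i)

/-- The adjoint of a finite linear combination of right translates is Eisenstein-killing if the
adjoint of `φ` is. -/
theorem isEK_adjoint_sum_shift32 (hF : IsFrame μ F) {ι : Type} (s : Finset ι) (c : ι → ℂ)
    (h : ι → G K) {φ : G K → ℂ} (hφc : Continuous φ) (hφs : HasCompactSupport φ)
    (hφ : IsEK μ (adjointFn φ)) :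
    IsEK μ (adjointFn (fun g => ∑ i ∈ s, c i * φ (g * h i))) := by
  have e1 : adjointFn (fun g => ∑ i ∈ s, c i * φ (g * h i))
      = fun g => ∑ i ∈ s, conj (c i) * adjointFn φ ((h i)⁻¹ * g) := by
    funext g
    simp only [adjointFn, map_sum, map_mul, mul_inv_rev, inv_inv]
  rw [e1]
  have hac : Continuous (adjointFn φ) := continuous_adjointFn32 hφc
  have has : HasCompactSupport (adjointFn φ) := hasCompactSupport_adjointFn32 hφs
  refine isEK_sum32 hF s (fun i g => conj (c i) * adjointFn φ ((h i)⁻¹ * g)) (fun i _ => ?_)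
    (fun i _ => ?_) (fun i _ => ?_)
  · exact continuous_const.mul (hac.comp (continuous_const.mul continuous_id))
  · exact (has.comp_homeomorph (Homeomorph.mulLeft (h i)⁻¹)).mul_left
  · exact isEK_smul32 (isEK_lshift32 hF hφ (h i)⁻¹) (conj (c i))

/-! ## 3. Right averages over a compact parameter set -/

section Avg

variable {Ω : Type} [TopologicalSpace Ω] [T2Space Ω] [MeasurableSpace Ω] [OpensMeasurableSpace Ω]

/-- The right average `g ↦ ∫_{a ∈ k} c(a) φ(g Y(a)) dν(a)`. -/
def rightAvg32 (ν : Measure Ω) (k : Set Ω) (c : Ω → ℂ) (Y : Ω → G K) (φ : G K → ℂ) :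
    G K → ℂ :=
  fun g => ∫ a in k, c a * φ (g * Y a) ∂ν

theorem rightAvg32_apply (ν : Measure Ω) (k : Set Ω) (c : Ω → ℂ) (Y : Ω → G K)
    (φ : G K → ℂ) (g : G K) :
    rightAvg32 ν k c Y φ g = ∫ a in k, c a * φ (g * Y a) ∂ν := rfl

/-- A point of the support of the average is a right translate of a point of the support. -/
theorem exists_of_rightAvg_ne_zero32 {ν : Measure Ω} {k : Set Ω} {c : Ω → ℂ} {Y : Ω → G K}
    {φ : G K → ℂ} {g : G K} (hg : rightAvg32 ν k c Y φ g ≠ 0) :
    ∃ a ∈ k, φ (g * Y a) ≠ 0 := by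
  by_contra hcon
  apply hg
  rw [rightAvg32_apply]
  refine setIntegral_eq_zero_of_forall_eq_zero fun a ha => ?_
  have : φ (g * Y a) = 0 := by
    by_contra h
    exact hcon ⟨a, ha, h⟩
  rw [this, mul_zero]

theorem hasCompactSupport_rightAvg32 (ν : Measure Ω) {k : Set Ω} (hk : IsCompact k)
    (c : Ω → ℂ) {Y : Ω → G K} (hY : Continuous Y) {φ : G K → ℂ} (hφs : HasCompactSupport φ) :
    HasCompactSupport (rightAvg32 ν k c Y φ) := by
  have hK : IsCompact (tsupport φ * (Y '' k)⁻¹) :=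
    hφs.isCompact.mul (hk.image hY).inv
  refine HasCompactSupport.intro hK ?_
  intro g hg
  by_contra hne
  apply hg
  obtain ⟨a, ha, hφa⟩ := exists_of_rightAvg_ne_zero32 hne
  refine ⟨g * Y a, subset_tsupport _ hφa, (Y a)⁻¹, ?_, by simp⟩
  exact Set.inv_mem_inv.mpr ⟨a, ha, rfl⟩

theorem continuous_rightAvg32 (hT : T1.T1Out K) (ν : Measure Ω) [IsLocallyFiniteMeasure ν]
    {k : Set Ω} (hk : IsCompact k) {c : Ω → ℂ} (hc : Continuous c) {Y : Ω → G K}
    (hY : Continuous Y) {φ : G K → ℂ} (hφc : Continuous φ) :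
    Continuous (rightAvg32 ν k c Y φ) := by
  have hLC : LocallyCompactSpace (G K) := hT.locComp.2.1
  have hSC : SecondCountableTopology (G K) := hT.locComp.2.2.2
  have hf : Continuous (Function.uncurry fun (g : G K) (a : Ω) => c a * φ (g * Y a)) := by
    show Continuous fun p : G K × Ω => c p.2 * φ (p.1 * Y p.2)
    exact (hc.comp continuous_snd).mul
      (hφc.comp (continuous_fst.mul (hY.comp continuous_snd)))
  exact continuous_parametric_integral_of_continuous hf hk

/-- **`R` of a right average**: `R(avg) e (x) = ∫_{a ∈ k} c(a) R(φ) (e(· Y(a)⁻¹)) (x) dν(a)`. -/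
theorem Rconv_rightAvg32 (hT : T1.T1Out K) (hF : IsFrame μ F) (ν : Measure Ω)
    [IsFiniteMeasureOnCompacts ν] {k : Set Ω} (hk : IsCompact k) {c : Ω → ℂ}
    (hc : Continuous c) {Y : Ω → G K} (hY : Continuous Y) {φ : G K → ℂ} (hφc : Continuous φ)
    (hφs : HasCompactSupport φ) {e : G K → ℂ} (he : Continuous e) (x : G K) :
    Rconv μ (rightAvg32 ν k c Y φ) e x
      = ∫ a in k, c a * Rconv μ φ (fun y => e (y * (Y a)⁻¹)) x ∂ν := by
  classical
  have hBorel : BorelSpace (G K) := H277.borelSpaceG277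
  have hLC : LocallyCompactSpace (G K) := hT.locComp.2.1
  have hT2 : T2Space (G K) := hT.locComp.2.2.1
  have hSC : SecondCountableTopology (G K) := hT.locComp.2.2.2
  have hHaar : μ.IsHaarMeasure := hF.haar
  have hνk : ν k < ⊤ := hk.measure_lt_top
  have : IsFiniteMeasure (ν.restrict k) := ⟨by rw [Measure.restrict_apply_univ]; exact hνk⟩
  -- the compact set which carries the integrand in the variable `y`
  set C : Set (G K) := tsupport φ * (Y '' k)⁻¹ with hCdef
  have hC : IsCompact C := hφs.isCompact.mul (hk.image hY).inv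
  have hCmem : ∀ (y : G K) (a : Ω), a ∈ k → φ (y * Y a) ≠ 0 → y ∈ C := by
    intro y a ha hne
    refine ⟨y * Y a, subset_tsupport _ hne, (Y a)⁻¹, Set.inv_mem_inv.mpr ⟨a, ha, rfl⟩, by simp⟩
  let f : G K → Ω → ℂ := fun y a => c a * φ (y * Y a) * e (x * y)
  have hfc : Continuous (Function.uncurry f) := by
    show Continuous fun p : G K × Ω => c p.2 * φ (p.1 * Y p.2) * e (x * p.1)
    exact ((hc.comp continuous_snd).mul
      (hφc.comp (continuous_fst.mul (hY.comp continuous_snd)))).mul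
      (he.comp (continuous_const.mul continuous_fst))
  -- a bound on `C × k`
  obtain ⟨M, hM⟩ := (hC.prod hk).exists_bound_of_continuousOn
    (f := Function.uncurry f) hfc.continuousOn
  have hdom : ∀ᵐ p ∂(μ.prod (ν.restrict k)),
      ‖Function.uncurry f p‖ ≤ (C.indicator (fun _ => max M 0) p.1 : ℝ) := by
    have hk' : ∀ᵐ a ∂(ν.restrict k), a ∈ k := by
      have hkm : MeasurableSet k := hk.isClosed.measurableSet
      exact ae_restrict_mem hkm
    have hk'' : ∀ᵐ p ∂(μ.prod (ν.restrict k)), p.2 ∈ k := by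
      have := (Measure.quasiMeasurePreserving_snd (μ := μ) (ν := ν.restrict k)).ae hk'
      exact this
    filter_upwards [hk''] with p hp
    by_cases hpC : p.1 ∈ C
    · rw [Set.indicator_of_mem hpC]
      exact (hM p ⟨hpC, hp⟩).trans (le_max_left _ _)
    · rw [Set.indicator_of_notMem hpC]
      have h0 : φ (p.1 * Y p.2) = 0 := by
        by_contra h
        exact hpC (hCmem p.1 p.2 hp h)
      show ‖c p.2 * φ (p.1 * Y p.2) * e (x * p.1)‖ ≤ 0
      rw [h0, mul_zero, zero_mul, norm_zero]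
  have hbd : Integrable (fun p : G K × Ω => (C.indicator (fun _ => max M 0) p.1 : ℝ))
      (μ.prod (ν.restrict k)) := by
    have h1 : Integrable (C.indicator fun _ : G K => max M 0) μ :=
      (integrable_indicator_iff hC.measurableSet).mpr
        (integrableOn_const hC.measure_lt_top.ne (by simp))
    exact h1.comp_fst (ν.restrict k)
  have hint : Integrable (Function.uncurry f) (μ.prod (ν.restrict k)) :=
    hbd.mono' hfc.aestronglyMeasurable hdom
  have hswap := integral_integral_swap hint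
  -- the two sides
  have hL : Rconv μ (rightAvg32 ν k c Y φ) e x = ∫ y, ∫ a, f y a ∂(ν.restrict k) ∂μ := by
    unfold Rconv
    congr 1
    funext y
    rw [rightAvg32_apply, ← integral_mul_const]
  have hR : ∀ a : Ω, ∫ y, f y a ∂μ = c a * Rconv μ φ (fun y => e (y * (Y a)⁻¹)) x := by
    intro a
    rw [← Rconv_shift32 hF φ e (Y a) x]
    unfold Rconv
    rw [← integral_const_mul]
    congr 1
    funext y
    show c a * φ (y * Y a) * e (x * y) = c a * (φ (y * Y a) * e (x * y))
    ring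
  rw [hL, hswap]
  congr 1
  funext a
  exact hR a

/-- **Right averages of Eisenstein-killing functions are Eisenstein-killing.** -/
theorem isEK_rightAvg32 (hT : T1.T1Out K) (hF : IsFrame μ F) (ν : Measure Ω)
    [IsFiniteMeasureOnCompacts ν] {k : Set Ω} (hk : IsCompact k) {c : Ω → ℂ}
    (hc : Continuous c) {Y : Ω → G K} (hY : Continuous Y) {φ : G K → ℂ} (hφc : Continuous φ)
    (hφs : HasCompactSupport φ) (hφ : IsEK μ φ) : IsEK μ (rightAvg32 ν k c Y φ) := by
  intro Ψ hΨ x
  rw [Rconv_rightAvg32 hT hF ν hk hc hY hφc hφs hΨ.cont x]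
  refine setIntegral_eq_zero_of_forall_eq_zero fun a _ => ?_
  rw [hφ _ (isBorelInvariantFn_shift32 hΨ (Y a)⁻¹) x, mul_zero]

/-- The left average `g ↦ ∫_{a ∈ k} c(a) ψ(Y(a) g) dν(a)`. -/
def leftAvg32 (ν : Measure Ω) (k : Set Ω) (c : Ω → ℂ) (Y : Ω → G K) (ψ : G K → ℂ) :
    G K → ℂ :=
  fun g => ∫ a in k, c a * ψ (Y a * g) ∂ν

theorem leftAvg32_apply (ν : Measure Ω) (k : Set Ω) (c : Ω → ℂ) (Y : Ω → G K)
    (ψ : G K → ℂ) (g : G K) :
    leftAvg32 ν k c Y ψ g = ∫ a in k, c a * ψ (Y a * g) ∂ν := rfl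

/-- The adjoint of a right average is the left average of the adjoint over the inverses. -/
theorem adjointFn_rightAvg32 (ν : Measure Ω) (k : Set Ω) (c : Ω → ℂ) (Y : Ω → G K)
    (φ : G K → ℂ) :
    adjointFn (rightAvg32 ν k c Y φ)
      = leftAvg32 ν k (fun a => conj (c a)) (fun a => (Y a)⁻¹) (adjointFn φ) := by
  funext g
  show conj (∫ a in k, c a * φ (g⁻¹ * Y a) ∂ν)
    = ∫ a in k, conj (c a) * conj (φ (((Y a)⁻¹ * g)⁻¹)) ∂ν
  rw [← integral_conj]
  congr 1
  funext a
  simp only [map_mul, mul_inv_rev, inv_inv]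

/-- **`R` of a left average**: `R(avg) e (x) = ∫_{a ∈ k} c(a) R(ψ) e (x Y(a)⁻¹) dν(a)`. -/
theorem Rconv_leftAvg32 (hT : T1.T1Out K) (hF : IsFrame μ F) (ν : Measure Ω)
    [IsFiniteMeasureOnCompacts ν] {k : Set Ω} (hk : IsCompact k) {c : Ω → ℂ}
    (hc : Continuous c) {Y : Ω → G K} (hY : Continuous Y) {ψ : G K → ℂ} (hψc : Continuous ψ)
    (hψs : HasCompactSupport ψ) {e : G K → ℂ} (he : Continuous e) (x : G K) :
    Rconv μ (leftAvg32 ν k c Y ψ) e x
      = ∫ a in k, c a * Rconv μ ψ e (x * (Y a)⁻¹) ∂ν := by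
  classical
  have hBorel : BorelSpace (G K) := H277.borelSpaceG277
  have hLC : LocallyCompactSpace (G K) := hT.locComp.2.1
  have hT2 : T2Space (G K) := hT.locComp.2.2.1
  have hSC : SecondCountableTopology (G K) := hT.locComp.2.2.2
  have hHaar : μ.IsHaarMeasure := hF.haar
  have hνk : ν k < ⊤ := hk.measure_lt_top
  have : IsFiniteMeasure (ν.restrict k) := ⟨by rw [Measure.restrict_apply_univ]; exact hνk⟩
  set C : Set (G K) := (Y '' k)⁻¹ * tsupport ψ with hCdef
  have hC : IsCompact C := (hk.image hY).inv.mul hψs.isCompact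
  have hCmem : ∀ (y : G K) (a : Ω), a ∈ k → ψ (Y a * y) ≠ 0 → y ∈ C := by
    intro y a ha hne
    refine ⟨(Y a)⁻¹, Set.inv_mem_inv.mpr ⟨a, ha, rfl⟩, Y a * y, subset_tsupport _ hne, by simp⟩
  let f : G K → Ω → ℂ := fun y a => c a * ψ (Y a * y) * e (x * y)
  have hfc : Continuous (Function.uncurry f) := by
    show Continuous fun p : G K × Ω => c p.2 * ψ (Y p.2 * p.1) * e (x * p.1)
    exact ((hc.comp continuous_snd).mul
      (hψc.comp ((hY.comp continuous_snd).mul continuous_fst))).mul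
      (he.comp (continuous_const.mul continuous_fst))
  obtain ⟨M, hM⟩ := (hC.prod hk).exists_bound_of_continuousOn
    (f := Function.uncurry f) hfc.continuousOn
  have hdom : ∀ᵐ p ∂(μ.prod (ν.restrict k)),
      ‖Function.uncurry f p‖ ≤ (C.indicator (fun _ => max M 0) p.1 : ℝ) := by
    have hk' : ∀ᵐ a ∂(ν.restrict k), a ∈ k := by
      have hkm : MeasurableSet k := hk.isClosed.measurableSet
      exact ae_restrict_mem hkm
    have hk'' : ∀ᵐ p ∂(μ.prod (ν.restrict k)), p.2 ∈ k := by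
      have := (Measure.quasiMeasurePreserving_snd (μ := μ) (ν := ν.restrict k)).ae hk'
      exact this
    filter_upwards [hk''] with p hp
    by_cases hpC : p.1 ∈ C
    · rw [Set.indicator_of_mem hpC]
      exact (hM p ⟨hpC, hp⟩).trans (le_max_left _ _)
    · rw [Set.indicator_of_notMem hpC]
      have h0 : ψ (Y p.2 * p.1) = 0 := by
        by_contra h
        exact hpC (hCmem p.1 p.2 hp h)
      show ‖c p.2 * ψ (Y p.2 * p.1) * e (x * p.1)‖ ≤ 0
      rw [h0, mul_zero, zero_mul, norm_zero]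
  have hbd : Integrable (fun p : G K × Ω => (C.indicator (fun _ => max M 0) p.1 : ℝ))
      (μ.prod (ν.restrict k)) := by
    have h1 : Integrable (C.indicator fun _ : G K => max M 0) μ :=
      (integrable_indicator_iff hC.measurableSet).mpr
        (integrableOn_const hC.measure_lt_top.ne (by simp))
    exact h1.comp_fst (ν.restrict k)
  have hint : Integrable (Function.uncurry f) (μ.prod (ν.restrict k)) :=
    hbd.mono' hfc.aestronglyMeasurable hdom
  have hswap := integral_integral_swap hint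
  have hL : Rconv μ (leftAvg32 ν k c Y ψ) e x = ∫ y, ∫ a, f y a ∂(ν.restrict k) ∂μ := by
    unfold Rconv
    congr 1
    funext y
    rw [leftAvg32_apply, ← integral_mul_const]
  have hR : ∀ a : Ω, ∫ y, f y a ∂μ = c a * Rconv μ ψ e (x * (Y a)⁻¹) := by
    intro a
    rw [← Rconv_lshift32 hF ψ e (Y a) x]
    unfold Rconv
    rw [← integral_const_mul]
    congr 1
    funext y
    show c a * ψ (Y a * y) * e (x * y) = c a * (ψ (Y a * y) * e (x * y))
    ring
  rw [hL, hswap]
  congr 1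
  funext a
  exact hR a

/-- **Left averages of Eisenstein-killing functions are Eisenstein-killing.** -/
theorem isEK_leftAvg32 (hT : T1.T1Out K) (hF : IsFrame μ F) (ν : Measure Ω)
    [IsFiniteMeasureOnCompacts ν] {k : Set Ω} (hk : IsCompact k) {c : Ω → ℂ}
    (hc : Continuous c) {Y : Ω → G K} (hY : Continuous Y) {ψ : G K → ℂ} (hψc : Continuous ψ)
    (hψs : HasCompactSupport ψ) (hψ : IsEK μ ψ) : IsEK μ (leftAvg32 ν k c Y ψ) := by
  intro Ψ hΨ x
  rw [Rconv_leftAvg32 hT hF ν hk hc hY hψc hψs hΨ.cont x]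
  refine setIntegral_eq_zero_of_forall_eq_zero fun a _ => ?_
  rw [hψ Ψ hΨ _, mul_zero]

/-- **The adjoint of a right average is Eisenstein-killing if the adjoint of `φ` is.** -/
theorem isEK_adjoint_rightAvg32 (hT : T1.T1Out K) (hF : IsFrame μ F) (ν : Measure Ω)
    [IsFiniteMeasureOnCompacts ν] {k : Set Ω} (hk : IsCompact k) {c : Ω → ℂ}
    (hc : Continuous c) {Y : Ω → G K} (hY : Continuous Y) {φ : G K → ℂ} (hφc : Continuous φ)
    (hφs : HasCompactSupport φ) (hφ : IsEK μ (adjointFn φ)) :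
    IsEK μ (adjointFn (rightAvg32 ν k c Y φ)) := by
  rw [adjointFn_rightAvg32]
  exact isEK_leftAvg32 hT hF ν hk (Complex.continuous_conj.comp hc) hY.inv
    (continuous_adjointFn32 hφc) (hasCompactSupport_adjointFn32 hφs) hφ

end Avg

/-! ## 4. Iwahori support -/

/-- An element which is trivial at `w` is Iwahori at `w`. -/
theorem inIwahori_of_trivAtFin32 {w : HeightOneSpectrum (𝓞 K)} {h : G K} (hh : TrivAtFin w h) :
    InIwahori w h := by
  have h1 : finComp w h = 1 := hh
  have h2 : finComp w h⁻¹ = 1 := by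
    have := finComp_mul942 w h h⁻¹
    rw [mul_inv_cancel, finComp_one942, h1, one_mul] at this
    exact this.symm
  refine ⟨fun i j => ?_, fun i j => ?_, ?_⟩
  · rw [h1]
    by_cases hij : i = j
    · subst hij
      rw [Matrix.one_apply_eq]
      exact Subring.one_mem _
    · rw [Matrix.one_apply_ne hij]
      exact Subring.zero_mem _
  · rw [h2]
    by_cases hij : i = j
    · subst hij
      rw [Matrix.one_apply_eq]
      exact Subring.one_mem _
    · rw [Matrix.one_apply_ne hij]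
      exact Subring.zero_mem _
  · rw [h1, Matrix.one_apply_ne (by decide : (1 : Fin 2) ≠ 0), map_zero]
    exact zero_lt_one

theorem trivAtFin_inv32 {w : HeightOneSpectrum (𝓞 K)} {h : G K} (hh : TrivAtFin w h) :
    TrivAtFin w h⁻¹ := by
  have h1 : finComp w h = 1 := hh
  have := finComp_mul942 w h h⁻¹
  rw [mul_inv_cancel, finComp_one942, h1, one_mul] at this
  exact this.symm

/-- **Iwahori support is stable under right translation** by an element which is trivial at the
places of the orbit. -/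
theorem isIwSupported_shift32 {l : ℕ} {o : ℕ → HeightOneSpectrum (𝓞 K)} {C : Set (G K)}
    {φ : G K → ℂ} (hφ : IsIwSupported32 l o C φ) {h : G K}
    (hh : ∀ j : ℕ, j < l → TrivAtFin (o j) h) :
    IsIwSupported32 l o (C * {h⁻¹}) (fun g => φ (g * h)) := by
  intro y hy
  obtain ⟨hI, c, hc, hyc⟩ := hφ (y * h) hy
  have hy' : y = y * h * h⁻¹ := by simp
  refine ⟨fun j hj => ?_, c * h⁻¹, ⟨c, hc, h⁻¹, rfl, rfl⟩, ?_⟩
  · rw [hy']
    exact inIwahori_mul942 (o j) (hI j hj) (inIwahori_of_trivAtFin32 (trivAtFin_inv32 (hh j hj)))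
  · rw [hy']
    exact agreeOutside_mul942 _ hyc (agreeOutside_refl942 _ _)

/-- **Iwahori support of a right average.** -/
theorem isIwSupported_rightAvg32 {Ω : Type} [TopologicalSpace Ω] [T2Space Ω]
    [MeasurableSpace Ω] [OpensMeasurableSpace Ω] (ν : Measure Ω) (k : Set Ω)
    (c : Ω → ℂ) (Y : Ω → G K) {l : ℕ} {o : ℕ → HeightOneSpectrum (𝓞 K)} {C : Set (G K)}
    {φ : G K → ℂ} (hφ : IsIwSupported32 l o C φ)
    (hY : ∀ a ∈ k, ∀ j : ℕ, j < l → TrivAtFin (o j) (Y a)) :
    IsIwSupported32 l o (C * (Y '' k)⁻¹) (rightAvg32 ν k c Y φ) := by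
  intro y hy
  obtain ⟨a, ha, hne⟩ := exists_of_rightAvg_ne_zero32 hy
  obtain ⟨hI, h0, hh0, hag⟩ := isIwSupported_shift32 hφ (hY a ha) y hne
  refine ⟨hI, h0, ?_, hag⟩
  obtain ⟨c₀, hc₀, z, hz, rfl⟩ := hh0
  rw [Set.mem_singleton_iff] at hz
  subst hz
  exact ⟨c₀, hc₀, (Y a)⁻¹, Set.inv_mem_inv.mpr ⟨a, ha, rfl⟩, rfl⟩

/-- **Iwahori support of a finite linear combination of right translates.** -/
theorem isIwSupported_sum_shift32 {ι : Type} (s : Finset ι) (c : ι → ℂ) (h : ι → G K) {l : ℕ}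
    {o : ℕ → HeightOneSpectrum (𝓞 K)} {C : Set (G K)} {φ : G K → ℂ}
    (hφ : IsIwSupported32 l o C φ) (hh : ∀ i ∈ s, ∀ j : ℕ, j < l → TrivAtFin (o j) (h i)) :
    IsIwSupported32 l o (C * ((fun i => (h i)⁻¹) '' (s : Set ι)))
      (fun g => ∑ i ∈ s, c i * φ (g * h i)) := by
  intro y hy
  obtain ⟨i, hi, hne⟩ : ∃ i ∈ s, φ (y * h i) ≠ 0 := by
    by_contra hcon
    apply hy
    refine Finset.sum_eq_zero fun i hi => ?_
    have : φ (y * h i) = 0 := by
      by_contra hne
      exact hcon ⟨i, hi, hne⟩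
    rw [this, mul_zero]
  obtain ⟨hI, h0, hh0, hag⟩ := isIwSupported_shift32 hφ (hh i hi) y hne
  refine ⟨hI, h0, ?_, hag⟩
  obtain ⟨c₀, hc₀, z, hz, rfl⟩ := hh0
  rw [Set.mem_singleton_iff] at hz
  subst hz
  exact ⟨c₀, hc₀, (h i)⁻¹, ⟨i, hi, rfl⟩, rfl⟩

/-! ## 5. The sphere mean (the form of `T7.MeanEig` / `T2.sphereMean`) -/

/-- The sphere mean `∫_0^{2π} ∫_0^π φ(g Y(α,β)) sin β dβ dα` is a right average over the compact
rectangle `[0, 2π] × [0, π]`. -/
theorem sphere_eq_rightAvg32 {Y : ℝ → ℝ → G K} (hY : Continuous fun p : ℝ × ℝ => Y p.1 p.2)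
    {φ : G K → ℂ} (hφ : Continuous φ) (g : G K) :
    (∫ α in (0 : ℝ)..(2 * Real.pi), ∫ β in (0 : ℝ)..Real.pi,
        φ (g * Y α β) * ((Real.sin β : ℝ) : ℂ))
      = rightAvg32 (volume : Measure (ℝ × ℝ)) (Set.Icc 0 (2 * Real.pi) ×ˢ Set.Icc 0 Real.pi)
          (fun p => ((Real.sin p.2 : ℝ) : ℂ)) (fun p => Y p.1 p.2) φ g := by
  rw [rightAvg32_apply]
  have h2π : (0 : ℝ) ≤ 2 * Real.pi := by positivity
  have hπ : (0 : ℝ) ≤ Real.pi := Real.pi_pos.le
  rw [intervalIntegral.integral_of_le h2π]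
  simp_rw [intervalIntegral.integral_of_le hπ]
  have hcont : Continuous fun p : ℝ × ℝ => ((Real.sin p.2 : ℝ) : ℂ) * φ (g * Y p.1 p.2) :=
    (Complex.continuous_ofReal.comp (Real.continuous_sin.comp continuous_snd)).mul
      (hφ.comp (continuous_const.mul hY))
  have hint : IntegrableOn (fun p : ℝ × ℝ => ((Real.sin p.2 : ℝ) : ℂ) * φ (g * Y p.1 p.2))
      (Set.Icc 0 (2 * Real.pi) ×ˢ Set.Icc 0 Real.pi)
      ((volume : Measure ℝ).prod (volume : Measure ℝ)) :=
    hcont.continuousOn.integrableOn_compact (isCompact_Icc.prod isCompact_Icc)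
  rw [Measure.volume_eq_prod, setIntegral_prod _ hint, setIntegral_congr_set Ioc_ae_eq_Icc]
  congr 1
  funext α
  rw [setIntegral_congr_set Ioc_ae_eq_Icc]
  congr 1
  funext β
  ring

/-- The sphere mean as a function. -/
theorem sphere_fun_eq_rightAvg32 {Y : ℝ → ℝ → G K}
    (hY : Continuous fun p : ℝ × ℝ => Y p.1 p.2) {φ : G K → ℂ} (hφ : Continuous φ) :
    (fun g : G K => ∫ α in (0 : ℝ)..(2 * Real.pi), ∫ β in (0 : ℝ)..Real.pi,
        φ (g * Y α β) * ((Real.sin β : ℝ) : ℂ))
      = rightAvg32 (volume : Measure (ℝ × ℝ)) (Set.Icc 0 (2 * Real.pi) ×ˢ Set.Icc 0 Real.pi)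
          (fun p => ((Real.sin p.2 : ℝ) : ℂ)) (fun p => Y p.1 p.2) φ :=
  funext fun g => sphere_eq_rightAvg32 hY hφ g

theorem continuous_sin_snd32 : Continuous fun p : ℝ × ℝ => ((Real.sin p.2 : ℝ) : ℂ) :=
  Complex.continuous_ofReal.comp (Real.continuous_sin.comp continuous_snd)

/-- **The sphere mean of a continuous function is continuous.** -/
theorem continuous_sphere32 (hT : T1.T1Out K) {Y : ℝ → ℝ → G K}
    (hY : Continuous fun p : ℝ × ℝ => Y p.1 p.2) {φ : G K → ℂ} (hφ : Continuous φ) :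
    Continuous (fun g : G K => ∫ α in (0 : ℝ)..(2 * Real.pi), ∫ β in (0 : ℝ)..Real.pi,
        φ (g * Y α β) * ((Real.sin β : ℝ) : ℂ)) := by
  rw [sphere_fun_eq_rightAvg32 hY hφ]
  exact continuous_rightAvg32 hT _ (isCompact_Icc.prod isCompact_Icc) continuous_sin_snd32 hY hφ

/-- **The sphere mean of a continuous function of compact support has compact support.** -/
theorem hasCompactSupport_sphere32 {Y : ℝ → ℝ → G K}
    (hY : Continuous fun p : ℝ × ℝ => Y p.1 p.2) {φ : G K → ℂ} (hφ : Continuous φ)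
    (hφs : HasCompactSupport φ) :
    HasCompactSupport (fun g : G K => ∫ α in (0 : ℝ)..(2 * Real.pi),
      ∫ β in (0 : ℝ)..Real.pi, φ (g * Y α β) * ((Real.sin β : ℝ) : ℂ)) := by
  rw [sphere_fun_eq_rightAvg32 hY hφ]
  exact hasCompactSupport_rightAvg32 _ (isCompact_Icc.prod isCompact_Icc) _ hY hφs

/-- **The sphere mean of an Eisenstein-killing test function is Eisenstein-killing.** -/
theorem isEK_sphere32 (hT : T1.T1Out K) (hF : IsFrame μ F) {Y : ℝ → ℝ → G K}
    (hY : Continuous fun p : ℝ × ℝ => Y p.1 p.2) {φ : G K → ℂ} (hφc : Continuous φ)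
    (hφs : HasCompactSupport φ) (hφ : IsEK μ φ) :
    IsEK μ (fun g : G K => ∫ α in (0 : ℝ)..(2 * Real.pi), ∫ β in (0 : ℝ)..Real.pi,
      φ (g * Y α β) * ((Real.sin β : ℝ) : ℂ)) := by
  rw [sphere_fun_eq_rightAvg32 hY hφc]
  exact isEK_rightAvg32 hT hF _ (isCompact_Icc.prod isCompact_Icc) continuous_sin_snd32 hY hφc
    hφs hφ

/-- **The adjoint of the sphere mean is Eisenstein-killing if the adjoint of `φ` is.** -/
theorem isEK_adjoint_sphere32 (hT : T1.T1Out K) (hF : IsFrame μ F) {Y : ℝ → ℝ → G K}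
    (hY : Continuous fun p : ℝ × ℝ => Y p.1 p.2) {φ : G K → ℂ} (hφc : Continuous φ)
    (hφs : HasCompactSupport φ) (hφ : IsEK μ (adjointFn φ)) :
    IsEK μ (adjointFn (fun g : G K => ∫ α in (0 : ℝ)..(2 * Real.pi),
      ∫ β in (0 : ℝ)..Real.pi, φ (g * Y α β) * ((Real.sin β : ℝ) : ℂ))) := by
  rw [sphere_fun_eq_rightAvg32 hY hφc]
  exact isEK_adjoint_rightAvg32 hT hF _ (isCompact_Icc.prod isCompact_Icc) continuous_sin_snd32
    hY hφc hφs hφ

/-- **`R` of the sphere mean**: `R(M φ) e (x) = ∫∫ sin β · R(φ)(e(· Y(α,β)⁻¹))(x)`. -/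
theorem Rconv_sphere32 (hT : T1.T1Out K) (hF : IsFrame μ F) {Y : ℝ → ℝ → G K}
    (hY : Continuous fun p : ℝ × ℝ => Y p.1 p.2) {φ : G K → ℂ} (hφc : Continuous φ)
    (hφs : HasCompactSupport φ) {e : G K → ℂ} (he : Continuous e) (x : G K) :
    Rconv μ (fun g : G K => ∫ α in (0 : ℝ)..(2 * Real.pi), ∫ β in (0 : ℝ)..Real.pi,
        φ (g * Y α β) * ((Real.sin β : ℝ) : ℂ)) e x
      = ∫ p in Set.Icc (0 : ℝ) (2 * Real.pi) ×ˢ Set.Icc (0 : ℝ) Real.pi,
          ((Real.sin p.2 : ℝ) : ℂ) * Rconv μ φ (fun y => e (y * (Y p.1 p.2)⁻¹)) x := by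
  rw [sphere_fun_eq_rightAvg32 hY hφc]
  exact Rconv_rightAvg32 hT hF _ (isCompact_Icc.prod isCompact_Icc) continuous_sin_snd32 hY hφc
    hφs he x

/-- **Iwahori support of the sphere mean** (the sphere lives at an infinite place). -/
theorem isIwSupported_sphere32 {Y : ℝ → ℝ → G K}
    (hY : Continuous fun p : ℝ × ℝ => Y p.1 p.2) {l : ℕ} {o : ℕ → HeightOneSpectrum (𝓞 K)}
    {C : Set (G K)} {φ : G K → ℂ} (hφc : Continuous φ) (hφ : IsIwSupported32 l o C φ)
    (hYf : ∀ (α β : ℝ) (j : ℕ), j < l → TrivAtFin (o j) (Y α β)) :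
    IsIwSupported32 l o
      (C * ((fun p : ℝ × ℝ => Y p.1 p.2) '' (Set.Icc 0 (2 * Real.pi) ×ˢ Set.Icc 0 Real.pi))⁻¹)
      (fun g : G K => ∫ α in (0 : ℝ)..(2 * Real.pi), ∫ β in (0 : ℝ)..Real.pi,
        φ (g * Y α β) * ((Real.sin β : ℝ) : ℂ)) := by
  rw [sphere_fun_eq_rightAvg32 hY hφc]
  exact isIwSupported_rightAvg32 _ _ _ _ hφ fun a _ j hj => hYf a.1 a.2 j hj

end Fermat.Agent.LT.T5.H32

end
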