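import Fermat.Agent.LT.T5.H32.SphereSmooth
import Fermat.Agent.LT.T2.H90.SpherePres
import Fermat.Agent.LT.T2.H197.S2RotLeaf
import Fermat.Agent.LT.T2.H472.LocContLeaf

/-!
# Row LT, tower T5 (helper32): the sphere mean of a test function is a test function

OFF-MAIN, ADDITIVE.  KIT for the node `B981.StepMC981`.  For a test function `φ` of level `𝔫`
and trivial type and a parametrisation `Y` of the geodesic sphere of radius `d` at the complex
place `w` (the hypothesis of `T7.MeanEig`),

    φ' (g) = ∫_0^{2π} ∫_0^π φ (g Y(α,β)) sin β dβ dα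

is a test function of level `𝔫` and trivial type (`isTestFn_sphere32`), Eisenstein-killing with
Eisenstein-killing adjoint if `φ` is (`isEKPair_sphere32`), Iwahori-supported if `φ` is
(`exists_isIwSupported_sphere32`).  Inputs: `T5/H32/SphereSmooth.lean` (smoothness),
`T5/H32/ShiftKit.lean` (right averages), the closed T2 leaves `T2.H197.subS2Rot197` (rotation
invariance of `sin β dβ dα`), `T2.H472.subLocCont472`, `T2.H90.sphereMean_unitary_h90`;
`hT : T1.T1Out K` is `T1.t1Out K` (`T1/Closed.lean`), kept as a hypothesis (small closure).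

Also: `G_ext32` (an element of `GL₂(𝔸_K)` is determined by its components) and
`comm_of_disjoint32` (elements with disjoint supports commute).
-/

set_option autoImplicit false
open IsDedekindDomain NumberField MeasureTheory
open scoped MatrixGroups ComplexConjugate Pointwise ContDiff
open Fermat.Agent.LT.H556.A0 Fermat.Agent.LT.T5 Fermat.Agent.LT.H942 Fermat.Agent.LT.T5.H942

noncomputable section
namespace Fermat.Agent.LT.T5.H32

variable {K : Type} [Field K] [NumberField K]

attribute [local instance] Fermat.Agent.LT.T5.instMeasurableSpaceG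

/-! ## 1. Components -/

/-- An element of `GL₂(𝔸_K)` is determined by its components. -/
theorem G_ext32 {a b : G K} (hinf : ∀ w : InfinitePlace K, infComp w a = infComp w b)
    (hfin : ∀ v : HeightOneSpectrum (𝓞 K), finComp v a = finComp v b) : a = b := by
  apply Units.ext
  ext i j
  refine H277.adl_ext277 (fun w => ?_) (fun v => ?_)
  · exact congrFun (congrFun (hinf w) i) j
  · exact congrFun (congrFun (hfin v) i) j

/-- Elements with disjoint supports commute. -/
theorem comm_of_disjoint32 {a b : G K}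
    (hinf : ∀ w : InfinitePlace K, infComp w a = 1 ∨ infComp w b = 1)
    (hfin : ∀ v : HeightOneSpectrum (𝓞 K), finComp v a = 1 ∨ finComp v b = 1) :
    a * b = b * a := by
  refine G_ext32 (fun w => ?_) (fun v => ?_)
  · rw [infComp_mul942, infComp_mul942]
    rcases hinf w with h | h <;> rw [h, one_mul, mul_one]
  · rw [finComp_mul942, finComp_mul942]
    rcases hfin v with h | h <;> rw [h, one_mul, mul_one]

/-- An element of the level group commutes with an element supported at an infinite place. -/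
theorem comm_level_local32 {𝔫 : Ideal (𝓞 K)} {u y : G K} (hu : InLevelGroup 𝔫 u)
    {w : InfinitePlace K} (hy : IsLocalAtInf w y) : u * y = y * u :=
  comm_of_disjoint32 (fun w' => Or.inl (infComp_of_trivAtInf32 (hu.1 w')))
    (fun v => Or.inr (hy.2 v))

/-- Elements supported at different infinite places commute. -/
theorem comm_local_local32 {w w' : InfinitePlace K} (hww : w' ≠ w) {k y : G K}
    (hk : IsLocalAtInf w' k) (hy : IsLocalAtInf w y) : k * y = y * k := by
  refine comm_of_disjoint32 (fun w'' => ?_) (fun v => Or.inr (hy.2 v))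
  by_cases h : w'' = w'
  · subst h
    exact Or.inr (infComp_of_trivAtInf32 (hy.1 w'' hww))
  · exact Or.inl (infComp_of_trivAtInf32 (hk.1 w'' h))

/-- The components of a parametrisation of the sphere are smooth. -/
theorem contDiff_infComp_sphere32 (w : InfinitePlace K) (d : ℝ) {Y : ℝ → ℝ → G K}
    (hY : ∀ α β : ℝ, IsLocalAtInf w (Y α β) ∧ infComp w (Y α β) = rotZ α * rotY β * torus d)
    (w' : InfinitePlace K) (i j : Fin 2) :
    ContDiff ℝ ∞ (fun p : ℝ × ℝ => infComp w' (Y p.1 p.2) i j) := by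
  by_cases hw : w' = w
  · subst hw
    have e : (fun p : ℝ × ℝ => infComp w' (Y p.1 p.2) i j)
        = fun p => ∑ k : Fin 2, (∑ k' : Fin 2, rotZ p.1 i k' * rotY p.2 k' k) * torus d k j := by
      funext p
      rw [(hY p.1 p.2).2, Matrix.mul_apply]
      refine Finset.sum_congr rfl fun k _ => ?_
      rw [Matrix.mul_apply]
    rw [e]
    refine ContDiff.sum fun k _ => ContDiff.mul (ContDiff.sum fun k' _ => ContDiff.mul ?_ ?_)
      contDiff_const
    · exact (contDiff_rotZ32 i k').comp contDiff_fst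
    · exact (contDiff_rotY32 k' k).comp contDiff_snd
  · have e : (fun p : ℝ × ℝ => infComp w' (Y p.1 p.2) i j)
        = fun _ => (1 : Matrix (Fin 2) (Fin 2) ℂ) i j := by
      funext p
      rw [infComp_of_trivAtInf32 ((hY p.1 p.2).1.1 w' hw)]
    rw [e]
    exact contDiff_const

/-- A parametrisation of the sphere is continuous. -/
theorem continuous_sphereParam32 (w : InfinitePlace K) (d : ℝ) {Y : ℝ → ℝ → G K}
    (hY : ∀ α β : ℝ, IsLocalAtInf w (Y α β) ∧ infComp w (Y α β) = rotZ α * rotY β * torus d) :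
    Continuous fun p : ℝ × ℝ => Y p.1 p.2 :=
  T2.H472.subLocCont472 K w (ℝ × ℝ) (fun p => Y p.1 p.2) (fun p => (hY p.1 p.2).1)
    (fun i j => (contDiff_infComp_sphere32 w d hY w i j).continuous)

/-! ## 2. The sphere mean of a test function -/

/-- **THE SPHERE MEAN OF A TEST FUNCTION IS A TEST FUNCTION** (trivial type, same level). -/
theorem isTestFn_sphere32 (hT : T1.T1Out K) {𝔫 : Ideal (𝓞 K)} {φ : G K → ℂ}
    (hφ : IsTestFn 𝔫 trivType φ) {w : InfinitePlace K} (hw : w.IsComplex) (d : ℝ) {Y : ℝ → ℝ → G K}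
    (hY : ∀ α β : ℝ, IsLocalAtInf w (Y α β) ∧ infComp w (Y α β) = rotZ α * rotY β * torus d) :
    IsTestFn 𝔫 trivType (fun g : G K => ∫ α in (0 : ℝ)..(2 * Real.pi),
      ∫ β in (0 : ℝ)..Real.pi, φ (g * Y α β) * ((Real.sin β : ℝ) : ℂ)) := by
  have hYc := continuous_sphereParam32 w d hY
  have htriv : ∀ k : G K, (trivType k : ℂ)⁻¹ = 1 := fun k => by
    show ((1 : ℂ))⁻¹ = 1
    exact inv_one
  refine ⟨hφ.ktype, continuous_sphere32 hT hYc hφ.cont,
    hasCompactSupport_sphere32 hYc hφ.cont hφ.supp, isSmoothAtInf_sphereAt32 hφ.smooth w d hY,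
    ?_, ?_, ?_, ?_⟩
  · -- level, right
    intro u hu g
    show (∫ α in (0 : ℝ)..(2 * Real.pi), ∫ β in (0 : ℝ)..Real.pi,
        φ (g * u * Y α β) * ((Real.sin β : ℝ) : ℂ)) = _
    congr 1
    funext α
    congr 1
    funext β
    rw [mul_assoc, comm_level_local32 hu (hY α β).1, ← mul_assoc, hφ.inv.level_right u hu]
  · -- level, left
    intro u hu g
    show (∫ α in (0 : ℝ)..(2 * Real.pi), ∫ β in (0 : ℝ)..Real.pi,
        φ (u * g * Y α β) * ((Real.sin β : ℝ) : ℂ)) = _
    congr 1
    funext α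
    congr 1
    funext β
    rw [mul_assoc, hφ.inv.level_left u hu]
  · -- arch, right
    intro w' k hk g
    rw [htriv, one_mul]
    by_cases hww : w' = w
    · subst hww
      have hinv : ∀ k' : G K, IsArchCompact w' k' → ∀ g' : G K, φ (g' * k') = φ g' := by
        intro k' hk' g'
        rw [hφ.inv.arch_right w' k' hk' g', htriv, one_mul]
      exact T2.H90.sphereMean_unitary_h90 T2.H197.subS2Rot197 (T2.H472.subLocCont472 K) hw
        (d := d) (Y := Y) hY hφ.cont hinv k hk g
    · show (∫ α in (0 : ℝ)..(2 * Real.pi), ∫ β in (0 : ℝ)..Real.pi,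
          φ (g * k * Y α β) * ((Real.sin β : ℝ) : ℂ)) = _
      congr 1
      funext α
      congr 1
      funext β
      rw [mul_assoc, comm_local_local32 hww hk.1 (hY α β).1, ← mul_assoc,
        hφ.inv.arch_right w' k hk, htriv, one_mul]
  · -- arch, left
    intro w' k hk g
    rw [htriv, one_mul]
    show (∫ α in (0 : ℝ)..(2 * Real.pi), ∫ β in (0 : ℝ)..Real.pi,
        φ (k * g * Y α β) * ((Real.sin β : ℝ) : ℂ)) = _
    congr 1
    funext α
    congr 1
    funext β
    rw [mul_assoc, hφ.inv.arch_left w' k hk, htriv, one_mul]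

/-- **The sphere mean of an Eisenstein-killing pair is an Eisenstein-killing pair.** -/
theorem isEKPair_sphere32 (hT : T1.T1Out K) {μ : Measure (G K)} {F : Set (G K)}
    (hF : IsFrame μ F) {φ : G K → ℂ} (hφc : Continuous φ) (hφs : HasCompactSupport φ)
    (hφ : IsEK μ φ ∧ IsEK μ (adjointFn φ)) (w : InfinitePlace K) (d : ℝ) {Y : ℝ → ℝ → G K}
    (hY : ∀ α β : ℝ, IsLocalAtInf w (Y α β) ∧ infComp w (Y α β) = rotZ α * rotY β * torus d) :
    IsEK μ (fun g : G K => ∫ α in (0 : ℝ)..(2 * Real.pi), ∫ β in (0 : ℝ)..Real.pi,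
        φ (g * Y α β) * ((Real.sin β : ℝ) : ℂ)) ∧
      IsEK μ (adjointFn (fun g : G K => ∫ α in (0 : ℝ)..(2 * Real.pi),
        ∫ β in (0 : ℝ)..Real.pi, φ (g * Y α β) * ((Real.sin β : ℝ) : ℂ))) := by
  have hYc := continuous_sphereParam32 w d hY
  exact ⟨isEK_sphere32 hT hF hYc hφc hφs hφ.1, isEK_adjoint_sphere32 hT hF hYc hφc hφs hφ.2⟩

/-- **Iwahori support of the sphere mean** (existence form of `T7.IsL2PreSupp`). -/
theorem exists_isIwSupported_sphere32 {l : ℕ} {o : ℕ → HeightOneSpectrum (𝓞 K)} {φ : G K → ℂ}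
    (hφc : Continuous φ) (hφ : ∃ C : Set (G K), IsCompact C ∧ IsIwSupported32 l o C φ)
    (w : InfinitePlace K) (d : ℝ) {Y : ℝ → ℝ → G K}
    (hY : ∀ α β : ℝ, IsLocalAtInf w (Y α β) ∧ infComp w (Y α β) = rotZ α * rotY β * torus d) :
    ∃ C : Set (G K), IsCompact C ∧ IsIwSupported32 l o C
      (fun g : G K => ∫ α in (0 : ℝ)..(2 * Real.pi), ∫ β in (0 : ℝ)..Real.pi,
        φ (g * Y α β) * ((Real.sin β : ℝ) : ℂ)) := by
  have hYc := continuous_sphereParam32 w d hY
  obtain ⟨C, hC, hCφ⟩ := hφ
  exact ⟨_, hC.mul ((isCompact_Icc.prod isCompact_Icc).image hYc).inv,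
    isIwSupported_sphere32 hYc hφc hCφ fun α β j _ => (hY α β).1.2 (o j)⟩

end Fermat.Agent.LT.T5.H32

end
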